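import Fermat.Agent.AV.Defs
import Fermat.Prelude.Def_JacJ1Iface
import Fermat.Prelude.Def_GoodReductionJacobian_RelativeGroupLawKernel

/-!
# Points of a proper group scheme with values in fields and their specialisation

A spot of `F` with values in `E` carries points over `F` to points over `E`: by properness a point
over `F` extends uniquely to the valuation subring, and one composes with the reduction.
-/

set_option autoImplicit false

noncomputable section

open CategoryTheory CategoryTheory.Limits AlgebraicGeometry NeronModelInfra GoodReductionJacobian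

universe u

namespace FermatAgent.AV

variable {K : Type u} [Field K]

section Spot

variable {F E G : Type u} [Field F] [Algebra K F] [Field E] [Algebra K E] [Field G] [Algebra K G]

/-- The constants in the valuation subring of a spot. -/
def Spot.constMap (r : Spot K F E) : K →+* r.V :=
  (algebraMap K F).codRestrict r.V.toSubring r.isOver

theorem Spot.subtype_comp_constMap (r : Spot K F E) :
    r.V.subtype.comp r.constMap = algebraMap K F := rfl

theorem Spot.ρ_comp_constMap (r : Spot K F E) : r.ρ.comp r.constMap = algebraMap K E :=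
  RingHom.ext r.ρ_algebraMap

end Spot

namespace Geo

variable {A : Scheme.{u}} (f : A ⟶ Spec (CommRingCat.of K))

variable (K) in
/-- The structure map of the spectrum of a `K`-algebra. -/
def specK (F : Type u) [CommRing F] [Algebra K F] :
    Spec (CommRingCat.of F) ⟶ Spec (CommRingCat.of K) :=
  Spec.map (CommRingCat.ofHom (algebraMap K F))

theorem specK_self : specK K K = 𝟙 (Spec (CommRingCat.of K)) := Spec.map_id _

/-- The points with values in a field. -/
abbrev Pts (F : Type u) [Field F] [Algebra K F] : Type u := SchemeHomOver (specK K F) f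

variable {f}

/-- The group of points. -/
@[reducible]
def addCommGroup (L : RelativeGroupLaw K f) (hc : L.IsCommutative) (F : Type u) [Field F]
    [Algebra K F] : AddCommGroup (Pts f F) where
  add x y := L.mul _ x y
  zero := L.one _
  neg x := L.inv _ x
  add_assoc := L.mul_assoc _
  zero_add := L.one_mul _
  add_zero := L.mul_one _
  nsmul n x := L.nsmul _ n x
  nsmul_zero _ := rfl
  nsmul_succ _ _ := rfl
  zsmul := @zsmulRec _ ⟨L.one _⟩ ⟨fun x y => L.mul _ x y⟩ ⟨fun x => L.inv _ x⟩
    (fun n x => L.nsmul _ n x)
  neg_add_cancel := L.inv_mul_cancel _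
  add_comm := hc _

section Lift

variable {F E G : Type u} [Field F] [Algebra K F] [Field E] [Algebra K E] [Field G] [Algebra K G]
  [IsProper f]

/-- The structure map of the spectrum of the valuation subring of a spot. -/
abbrev spotBase (r : Spot K F E) : Spec (CommRingCat.of r.V) ⟶ Spec (CommRingCat.of K) :=
  Spec.map (CommRingCat.ofHom r.constMap)

/-- The inclusion of the generic point of the spectrum of a valuation subring. -/
abbrev generize (r : Spot K F E) : Spec (CommRingCat.of F) ⟶ Spec (CommRingCat.of r.V) :=
  Spec.map (CommRingCat.ofHom r.V.subtype)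

/-- The inclusion of the special point of the spectrum of a valuation subring. -/
abbrev specialize (r : Spot K F E) : Spec (CommRingCat.of E) ⟶ Spec (CommRingCat.of r.V) :=
  Spec.map (CommRingCat.ofHom r.ρ)

theorem generize_spotBase (r : Spot K F E) : generize r ≫ spotBase r = specK K F := by
  rw [← Spec.map_comp, ← CommRingCat.ofHom_comp, r.subtype_comp_constMap, specK]

theorem specialize_spotBase (r : Spot K F E) : specialize r ≫ spotBase r = specK K E := by
  rw [← Spec.map_comp, ← CommRingCat.ofHom_comp, r.ρ_comp_constMap, specK]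

/-- By properness a point over `F` extends to the valuation subring of a spot. -/
theorem exists_lift (r : Spot K F E) (P : Pts f F) :
    ∃ Q : SchemeHomOver (spotBase r) f, generize r ≫ Q.1 = P.1 := by
  have hex : ValuativeCriterion.Existence f := by
    have h : UniversallyClosed f := inferInstance
    rw [UniversallyClosed.eq_valuativeCriterion] at h
    exact h.1
  obtain ⟨⟨l⟩⟩ := hex
    { R := r.V, K := F, i₁ := P.1, i₂ := spotBase r,
      commSq := ⟨P.2.trans (generize_spotBase r).symm⟩ }
  exact ⟨⟨l.l, l.fac_right⟩, l.fac_left⟩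

/-- The extension to the valuation subring is unique. -/
theorem lift_ext (r : Spot K F E) {Q Q' : SchemeHomOver (spotBase r) f}
    (h : generize r ≫ Q.1 = generize r ≫ Q'.1) : Q = Q' := by
  let S : ValuativeCommSq f :=
    { R := r.V, K := F, i₁ := generize r ≫ Q.1, i₂ := spotBase r,
      commSq := ⟨by rw [Category.assoc, Q.2]; rfl⟩ }
  let l : S.commSq.LiftStruct := ⟨Q.1, rfl, Q.2⟩
  let l' : S.commSq.LiftStruct := ⟨Q'.1, h.symm, Q'.2⟩
  have : Subsingleton S.commSq.LiftStruct := IsSeparated.valuativeCriterion f S
  exact Subtype.ext (congrArg CommSq.LiftStruct.l (Subsingleton.elim l l') :)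

/-- The extension of a point to the valuation subring of a spot. -/
def lift (r : Spot K F E) (P : Pts f F) : SchemeHomOver (spotBase r) f := (exists_lift r P).choose

theorem generize_lift (r : Spot K F E) (P : Pts f F) : generize r ≫ (lift r P).1 = P.1 :=
  (exists_lift r P).choose_spec

theorem lift_eq (r : Spot K F E) (P : Pts f F) (Q : SchemeHomOver (spotBase r) f)
    (h : generize r ≫ Q.1 = P.1) : lift r P = Q :=
  lift_ext r ((generize_lift r P).trans h.symm)

/-- Specialisation of points along a spot. -/
def mapPt (r : Spot K F E) (P : Pts f F) : Pts f E :=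
  schemeHomOverComp (specialize r) (specialize_spotBase r) (lift r P)

theorem coe_mapPt (r : Spot K F E) (P : Pts f F) :
    (mapPt r P).1 = specialize r ≫ (lift r P).1 := rfl

theorem mapPt_eq (r : Spot K F E) (P : Pts f F) (Q : SchemeHomOver (spotBase r) f)
    (h : generize r ≫ Q.1 = P.1) : (mapPt r P).1 = specialize r ≫ Q.1 := by
  rw [coe_mapPt, lift_eq r P Q h]

/-- Specialisation along a spot respects the group law. -/
theorem mapPt_mul (L : RelativeGroupLaw K f) (r : Spot K F E) (P Q : Pts f F) :
    mapPt r (L.mul _ P Q) = L.mul _ (mapPt r P) (mapPt r Q) := by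
  have h : lift r (L.mul _ P Q) = L.mul _ (lift r P) (lift r Q) := by
    refine lift_eq r _ _ ?_
    have := L.mul_natural (spotBase r) (specK K F) (generize r) (generize_spotBase r)
      (lift r P) (lift r Q)
    rw [show schemeHomOverComp (generize r) (generize_spotBase r) (lift r P) = P from
        Subtype.ext (generize_lift r P),
      show schemeHomOverComp (generize r) (generize_spotBase r) (lift r Q) = Q from
        Subtype.ext (generize_lift r Q)] at this
    exact congrArg Subtype.val this
  rw [mapPt, h]
  exact L.mul_natural (spotBase r) (specK K E) (specialize r) (specialize_spotBase r) _ _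

/-- Specialisation as a homomorphism. -/
def map (L : RelativeGroupLaw K f) (hc : L.IsCommutative) (r : Spot K F E) :
    letI := addCommGroup L hc F
    letI := addCommGroup L hc E
    Pts f F →+ Pts f E :=
  letI := addCommGroup L hc F
  letI := addCommGroup L hc E
  AddMonoidHom.mk' (mapPt r) (mapPt_mul L r)

theorem coe_mapPt_ofHom (φ : F →ₐ[K] E) (P : Pts f F) :
    (mapPt (Spot.ofHom φ) P).1 = Spec.map (CommRingCat.ofHom φ.toRingHom) ≫ P.1 := by
  conv_rhs => rw [← generize_lift (Spot.ofHom φ) P]
  rw [coe_mapPt, ← Category.assoc, ← Spec.map_comp, ← CommRingCat.ofHom_comp]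
  rfl

/-- The identity spot fixes every point. -/
theorem mapPt_id (P : Pts f F) : mapPt (Spot.ofHom (AlgHom.id K F)) P = P :=
  Subtype.ext (by
    rw [coe_mapPt_ofHom]
    exact (congrArg (· ≫ P.1) (Spec.map_id _)).trans (Category.id_comp _))

/-- Specialisation is compatible with composition of spots. -/
theorem mapPt_comp (s : Spot K E G) (r : Spot K F E) (P : Pts f F) :
    mapPt (s.comp r) P = mapPt s (mapPt r P) := by
  let incl : (s.comp r).V →+* r.V := ValuationSubring.inclusion _ _ (r.pull_le s.kVal)
  let red : (s.comp r).V →+* s.V := r.pullRed s.kVal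
  set l := lift (s.comp r) P
  have h₁ : lift r P = schemeHomOverComp (Spec.map (CommRingCat.ofHom incl))
      (by rw [← Spec.map_comp, ← CommRingCat.ofHom_comp]; rfl) l := by
    refine lift_eq r P _ ?_
    rw [schemeHomOverComp_coe, ← Category.assoc, ← Spec.map_comp, ← CommRingCat.ofHom_comp]
    exact generize_lift (s.comp r) P
  have hred : Spec.map (CommRingCat.ofHom red) ≫ spotBase (s.comp r) = spotBase s := by
    rw [← Spec.map_comp, ← CommRingCat.ofHom_comp]
    congr 2
    exact RingHom.ext fun a => Subtype.ext (r.ρ_algebraMap a)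
  refine Subtype.ext ?_
  rw [mapPt_eq s (mapPt r P) (schemeHomOverComp _ hred l) ?_, coe_mapPt]
  · rw [schemeHomOverComp_coe, ← Category.assoc, ← Spec.map_comp, ← CommRingCat.ofHom_comp]
    rfl
  · rw [coe_mapPt, h₁, schemeHomOverComp_coe, schemeHomOverComp_coe, ← Category.assoc,
      ← Category.assoc, ← Spec.map_comp, ← Spec.map_comp, ← CommRingCat.ofHom_comp,
      ← CommRingCat.ofHom_comp]
    rfl

/-- Points inject along field embeddings. -/
theorem mapPt_ofHom_injective (φ : F →ₐ[K] E) :
    Function.Injective (mapPt (f := f) (Spot.ofHom φ)) := by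
  intro P Q h
  have h' := congrArg Subtype.val h
  rw [coe_mapPt_ofHom, coe_mapPt_ofHom] at h'
  set ψ := Spec.map (CommRingCat.ofHom φ.toRingHom)
  have : Surjective ψ := ⟨fun y => ⟨IsLocalRing.closedPoint E, Subsingleton.elim _ _⟩⟩
  have : Flat ψ := by
    rw [HasRingHomProperty.Spec_iff (P := @Flat)]
    let _ : Algebra F E := φ.toRingHom.toAlgebra
    exact (inferInstance : Module.Flat F E)
  have : Epi ψ := Flat.epi_of_flat_of_surjective ψ
  exact Subtype.ext ((cancel_epi ψ).1 h')

end Lift

/-- The torsion points in the sense of the group of points are those of the group law. -/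
theorem natCard_torsion_eq (L : RelativeGroupLaw K f) (hc : L.IsCommutative) (n : ℕ) :
    letI := addCommGroup L hc K
    Nat.card {x : SchemeHomOver (𝟙 (Spec (CommRingCat.of K))) f //
        L.IsTorsionPoint (𝟙 (Spec (CommRingCat.of K))) n x} =
      Nat.card {x : Pts f K // n • x = 0} := by
  show _ = Nat.card {x : SchemeHomOver (specK K K) f // L.IsTorsionPoint (specK K K) n x}
  rw [specK_self]

/-! ### Negation -/

theorem eq_inv_of_mul_eq_one (L : RelativeGroupLaw K f) {T : Scheme.{u}}
    (t : T ⟶ Spec (CommRingCat.of K)) {x y : SchemeHomOver t f} (h : L.mul t x y = L.one t) :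
    x = L.inv t y := by
  calc x = L.mul t x (L.mul t y (L.inv t y)) := by rw [L.mul_inv_cancel, L.mul_one]
    _ = L.inv t y := by rw [← L.mul_assoc, h, L.one_mul]

/-- Negation is composition with an endomorphism. -/
theorem coe_inv_eq_comp (L : RelativeGroupLaw K f) {T : Scheme.{u}}
    (t : T ⟶ Spec (CommRingCat.of K)) (x : SchemeHomOver t f) :
    (L.inv t x).1 = x.1 ≫ (L.inv f RelativeGroupLaw.idPoint).1 := by
  have h := L.mul_natural f t x.1 x.2 (L.inv f RelativeGroupLaw.idPoint) RelativeGroupLaw.idPoint
  rw [L.inv_mul_cancel, L.one_natural f t x.1 x.2,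
    show schemeHomOverComp x.1 x.2 (RelativeGroupLaw.idPoint : SchemeHomOver f f) = x from
      Subtype.ext (Category.comp_id x.1)] at h
  exact (congrArg Subtype.val (eq_inv_of_mul_eq_one L t h.symm)).symm

end Geo

end FermatAgent.AV

end
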