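import Fermat.Agent.AV.Geo.Points
import Fermat.Agent.AV.Basic.FunctionField

/-!
# The generic point and affine charts

The generic point is a point with values in the function field; it determines the spots through
which it factors generically.  Homomorphisms out of the coordinate rings of affine opens give
points, and every point arises so.
-/

set_option autoImplicit false

noncomputable section

open CategoryTheory CategoryTheory.Limits AlgebraicGeometry IsLocalRing NeronModelInfra
  GoodReductionJacobian

universe u

namespace FermatAgent.AV.Geo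

variable {K : Type u} [Field K] {A : Scheme.{u}} [IsIntegral A]
  (f : A ⟶ Spec (CommRingCat.of K)) [Algebra K A.functionField]
  (hf : algebraMap K A.functionField = Squeeze.baseMap f)

/-- The generic point. -/
def gen : Pts f A.functionField :=
  ⟨A.fromSpecStalk (genericPoint A), by
    rw [Squeeze.fromSpecStalk_genericPoint_comp, specK, hf]⟩

theorem coe_gen : (gen f hf).1 = A.fromSpecStalk (genericPoint A) := rfl

variable (A) in
/-- The affine charts. -/
def Chart : Type u := {V : A.Opens // IsAffineOpen V ∧ genericPoint A ∈ V}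

instance (c : Chart A) : Nonempty c.1 := ⟨⟨genericPoint A, c.2.2⟩⟩

include f hf in
theorem algebraMap_mem_range (c : Chart A) (a : K) :
    algebraMap K A.functionField a ∈ (algebraMap Γ(A, c.1) A.functionField).range :=
  ⟨constHom f c.1 a, RingHom.congr_fun (algebraMap_comp_constHom f hf c.1) a⟩

/-- The coordinate ring of a chart. -/
def chartRing (c : Chart A) : Subalgebra K A.functionField :=
  { (algebraMap Γ(A, c.1) A.functionField).range with
    algebraMap_mem' := algebraMap_mem_range f hf c }

theorem mem_chartRing {c : Chart A} {z : A.functionField} :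
    z ∈ chartRing f hf c ↔ ∃ a : Γ(A, c.1), algebraMap _ A.functionField a = z := Iff.rfl

/-- Sections of a chart as elements of its coordinate ring. -/
def toRing (c : Chart A) : Γ(A, c.1) →+* chartRing f hf c :=
  (algebraMap Γ(A, c.1) A.functionField).codRestrict (chartRing f hf c).toSubsemiring
    fun a => ⟨a, rfl⟩

theorem toRing_bijective (c : Chart A) : Function.Bijective (toRing f hf c) := by
  have := functionField_isFractionRing_of_isAffineOpen A c.1 c.2.1
  refine ⟨fun a b h => IsFractionRing.injective Γ(A, c.1) A.functionField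
    (congrArg Subtype.val h), fun z => ?_⟩
  obtain ⟨a, ha⟩ := (mem_chartRing f hf).1 z.2
  exact ⟨a, Subtype.ext ha⟩

theorem toRing_comp_constHom (c : Chart A) :
    (toRing f hf c).comp (constHom f c.1) = algebraMap K (chartRing f hf c) :=
  RingHom.ext fun a => Subtype.ext (RingHom.congr_fun (algebraMap_comp_constHom f hf c.1) a)

theorem chartRing_fg [LocallyOfFiniteType f] (c : Chart A) : (chartRing f hf c).FG := by
  rw [← Subalgebra.fg_top]
  suffices Algebra.FiniteType K (chartRing f hf c) from this.out
  rw [← RingHom.finiteType_algebraMap,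
    ← toRing_comp_constHom]
  refine RingHom.FiniteType.comp
    (RingHom.FiniteType.of_surjective _ (toRing_bijective f hf c).2) ?_
  rw [constHom, CommRingCat.hom_comp]
  exact RingHom.FiniteType.comp (f.finiteType_appLE (isAffineOpen_top _) c.2.1 le_top)
    (RingHom.FiniteType.of_surjective _ (ConcreteCategory.bijective_of_isIso _).2)

theorem chartRing_frac (c : Chart A) :
    IntermediateField.adjoin K (chartRing f hf c : Set A.functionField) = ⊤ := by
  have := functionField_isFractionRing_of_isAffineOpen A c.1 c.2.1
  refine top_le_iff.1 fun z _ => ?_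
  obtain ⟨a, b, -, rfl⟩ := IsFractionRing.div_surjective (A := Γ(A, c.1)) z
  exact div_mem (IntermediateField.subset_adjoin _ _ ⟨a, rfl⟩)
    (IntermediateField.subset_adjoin _ _ ⟨b, rfl⟩)

/-- The point given by a homomorphism on a chart. -/
def pt (c : Chart A) {F : Type u} [Field F] [Algebra K F] (h : chartRing f hf c →ₐ[K] F) :
    Pts f F :=
  ⟨Spec.map (CommRingCat.ofHom (h.toRingHom.comp (toRing f hf c))) ≫ c.2.1.fromSpec, by
    rw [Category.assoc, fromSpec_comp, ← Spec.map_comp, ← CommRingCat.ofHom_comp,
      RingHom.comp_assoc,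
      toRing_comp_constHom]
    exact congrArg (fun φ => Spec.map (CommRingCat.ofHom φ)) h.comp_algebraMap⟩

theorem coe_pt (c : Chart A) {F : Type u} [Field F] [Algebra K F]
    (h : chartRing f hf c →ₐ[K] F) :
    (pt f hf c h).1 =
      Spec.map (CommRingCat.ofHom (h.toRingHom.comp (toRing f hf c))) ≫ c.2.1.fromSpec := rfl

theorem pt_gen (c : Chart A) : pt f hf c (chartRing f hf c).val = gen f hf := by
  refine Subtype.ext ?_
  rw [coe_gen, ← c.2.1.fromSpecStalk_eq_fromSpecStalk c.2.2, coe_pt, IsAffineOpen.fromSpecStalk]
  rfl

theorem map_pt [IsProper f] (c : Chart A) {F E : Type u} [Field F] [Algebra K F] [Field E]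
    [Algebra K E] (r : Spot K F E) (h : chartRing f hf c →ₐ[K] F)
    (h' : chartRing f hf c →ₐ[K] E) (hV : ∀ a, h a ∈ r.V) (hρ : ∀ a, r.ρ ⟨h a, hV a⟩ = h' a) :
    mapPt r (pt f hf c h) = pt f hf c h' := by
  let hR : Γ(A, c.1) →+* r.V :=
    ((h.toRingHom.comp (toRing f hf c)).codRestrict r.V.toSubring fun a => hV _)
  let Q : SchemeHomOver (spotBase r) f :=
    ⟨Spec.map (CommRingCat.ofHom hR) ≫ c.2.1.fromSpec, by
      rw [Category.assoc, fromSpec_comp, ← Spec.map_comp, ← CommRingCat.ofHom_comp]
      exact congrArg (fun φ => Spec.map (CommRingCat.ofHom φ)) (RingHom.ext fun a => Subtype.ext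
        ((congrArg h (RingHom.congr_fun (toRing_comp_constHom f hf c) a)).trans (h.commutes a)))⟩
  refine Subtype.ext ((mapPt_eq r _ Q ?_).trans ?_)
  · rw [← Category.assoc, ← Spec.map_comp, ← CommRingCat.ofHom_comp]
    rfl
  · rw [coe_pt, ← Category.assoc, ← Spec.map_comp, ← CommRingCat.ofHom_comp]
    exact congrArg (fun φ => Spec.map (CommRingCat.ofHom φ) ≫ c.2.1.fromSpec)
      (RingHom.ext fun a => hρ _)

/-- Every point with values in a field lies in some chart: it is given by a homomorphism of the
coordinate ring of an affine open containing the generic point. -/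
theorem exists_chart {F : Type u} [Field F] [Algebra K F] (P : Pts f F) :
    ∃ c h, pt f hf c h = P := by
  set x := P.1 (closedPoint F)
  obtain ⟨V, hV, hxV, -⟩ := exists_isAffineOpen_mem_and_subset (TopologicalSpace.Opens.mem_top x)
  let c : Chart A := ⟨V, hV,
    ((genericPoint_spec A).mem_open_set_iff V.isOpen).2 ⟨x, trivial, hxV⟩⟩
  have hr : Set.range P.1 ⊆ Set.range hV.fromSpec := by
    rintro _ ⟨y, rfl⟩
    rw [hV.range_fromSpec, show y = closedPoint F from Subsingleton.elim _ _]
    exact hxV
  let φ := Spec.preimage (IsOpenImmersion.lift hV.fromSpec P.1 hr)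
  have hφ : Spec.map φ ≫ hV.fromSpec = P.1 := by
    rw [Spec.map_preimage, IsOpenImmersion.lift_fac]
  have hc : φ.hom.comp (constHom f V) = algebraMap K F := by
    have h := P.2
    rw [← hφ, Category.assoc, fromSpec_comp, ← Spec.map_comp, specK] at h
    exact congrArg CommRingCat.Hom.hom (Spec.map_injective h)
  let e : Γ(A, V) ≃+* chartRing f hf c := RingEquiv.ofBijective _ (toRing_bijective f hf c)
  have he : e.symm.toRingHom.comp (algebraMap K (chartRing f hf c)) = constHom f V :=
    RingHom.ext fun a => e.injective ((e.apply_symm_apply _).trans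
      (RingHom.congr_fun (toRing_comp_constHom f hf c) a).symm)
  refine ⟨c, { φ.hom.comp e.symm.toRingHom with commutes' := fun a => ?_ }, Subtype.ext ?_⟩
  · exact (congrArg φ.hom (RingHom.congr_fun he a)).trans (RingHom.congr_fun hc a)
  · rw [coe_pt, ← hφ]
    exact congrArg (fun ψ => Spec.map (CommRingCat.ofHom ψ) ≫ hV.fromSpec)
      (RingHom.ext fun a => congrArg φ.hom (e.symm_apply_apply a))

end FermatAgent.AV.Geo

end
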