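import Fermat.Agent.AV.Geo.Chart

/-!
# A spot of the function field whose point lies in a chart is centred in that chart

Consequently a spot moving the generic point as an embedding of the function field does is that
embedding.
-/

set_option autoImplicit false

noncomputable section

open CategoryTheory AlgebraicGeometry IsLocalRing NeronModelInfra GoodReductionJacobian

universe u

namespace FermatAgent.AV.Geo

variable {K : Type u} [Field K] {A : Scheme.{u}} [IsIntegral A]
  (f : A ⟶ Spec (CommRingCat.of K)) [Algebra K A.functionField]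
  (hf : algebraMap K A.functionField = Squeeze.baseMap f)

theorem pt_centre [IsProper f] (c : Chart A) {E : Type u} [Field E] [Algebra K E]
    (r : Spot K A.functionField E) (h' : chartRing f hf c →ₐ[K] E)
    (h : mapPt r (gen f hf) = pt f hf c h') :
    ∃ hV : ∀ a : chartRing f hf c, (a : A.functionField) ∈ r.V,
      ∀ a : chartRing f hf c, r.ρ ⟨a, hV a⟩ = h' a := by
  set l := (lift r (gen f hf)).1
  have h1 : specialize r ≫ l =
      Spec.map (CommRingCat.ofHom (h'.toRingHom.comp (toRing f hf c))) ≫ c.2.1.fromSpec := by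
    have := congrArg Subtype.val h
    rwa [coe_mapPt, coe_pt] at this
  have hker : IsLocalHom r.ρ := ⟨fun x hx => by_contra fun hu => by
    rw [(r.ker_iff x).2 hu] at hx
    exact not_isUnit_zero hx⟩
  have hcl : l (closedPoint r.V) ∈ c.1 := by
    have e : l (specialize r (closedPoint E)) = c.2.1.fromSpec
        (Spec.map (CommRingCat.ofHom (h'.toRingHom.comp (toRing f hf c))) (closedPoint E)) :=
      congrArg (fun m : Spec (CommRingCat.of E) ⟶ A => m (closedPoint E)) h1
    have e1 : specialize r (closedPoint E) = closedPoint r.V := comap_closedPoint r.ρ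
    rw [e1] at e
    rw [e]
    show _ ∈ (c.1 : Set A)
    rw [← c.2.1.range_fromSpec]
    exact Set.mem_range_self _
  have hr : Set.range l ⊆ Set.range c.2.1.fromSpec := by
    rw [c.2.1.range_fromSpec]
    rintro _ ⟨y, rfl⟩
    exact ((specializes_closedPoint y).map l.continuous).mem_open c.1.isOpen hcl
  set φ := Spec.preimage (IsOpenImmersion.lift c.2.1.fromSpec l hr)
  have hφ : Spec.map φ ≫ c.2.1.fromSpec = l := by
    rw [Spec.map_preimage, IsOpenImmersion.lift_fac]
  have h2 : φ ≫ CommRingCat.ofHom r.V.subtype =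
      CommRingCat.ofHom ((chartRing f hf c).val.toRingHom.comp (toRing f hf c)) := by
    refine Spec.map_injective ((cancel_mono c.2.1.fromSpec).1 ?_)
    rw [Spec.map_comp, Category.assoc, hφ, ← coe_pt, pt_gen]
    exact generize_lift r (gen f hf)
  have h3 : φ ≫ CommRingCat.ofHom r.ρ =
      CommRingCat.ofHom (h'.toRingHom.comp (toRing f hf c)) := by
    refine Spec.map_injective ((cancel_mono c.2.1.fromSpec).1 ?_)
    rw [Spec.map_comp, Category.assoc, hφ, h1]
  have hid : ∀ b, ((φ.hom b : r.V) : A.functionField) = (toRing f hf c b : A.functionField) :=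
    fun b => congrArg (fun m : Γ(A, c.1) ⟶ CommRingCat.of A.functionField => m.hom b) h2
  have hV : ∀ a : chartRing f hf c, (a : A.functionField) ∈ r.V := by
    intro a
    obtain ⟨b, rfl⟩ := (toRing_bijective f hf c).2 a
    exact hid b ▸ (φ.hom b).2
  refine ⟨hV, fun a => ?_⟩
  obtain ⟨b, rfl⟩ := (toRing_bijective f hf c).2 a
  rw [show (⟨(toRing f hf c b : A.functionField), hV _⟩ : r.V) = φ.hom b from
    Subtype.ext (hid b).symm]
  exact congrArg (fun m : Γ(A, c.1) ⟶ CommRingCat.of E => m.hom b) h3

/-- A spot under which the generic point moves as under an embedding is that embedding. -/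
theorem generic_unique [IsProper f] {E : Type u} [Field E] [Algebra K E]
    (r : Spot K A.functionField E) (j : A.functionField →ₐ[K] E)
    (h : mapPt r (gen f hf) = mapPt (Spot.ofHom j) (gen f hf)) :
    r.V = ⊤ ∧ ∀ x : r.V, r.ρ x = j x := by
  obtain ⟨V, hV, hxV, -⟩ :=
    exists_isAffineOpen_mem_and_subset (TopologicalSpace.Opens.mem_top (genericPoint A))
  obtain ⟨c⟩ : Nonempty (Chart A) := ⟨⟨V, hV, hxV⟩⟩
  have := functionField_isFractionRing_of_isAffineOpen A c.1 c.2.1
  obtain ⟨hR, hρ⟩ := pt_centre f hf c r (j.comp (chartRing f hf c).val) (h.trans (by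
    rw [← pt_gen f hf c]
    exact map_pt f hf c (Spot.ofHom j) _ _ (fun _ => ValuationSubring.mem_top _) fun _ => rfl))
  have key : ∀ x, ∃ hx : x ∈ r.V, r.ρ ⟨x, hx⟩ = j x := fun x => by
    obtain ⟨a, b, hb, rfl⟩ := IsFractionRing.div_surjective (A := Γ(A, c.1)) x
    set a' := toRing f hf c a
    set b' := toRing f hf c b
    have hb0 : (b' : A.functionField) ≠ 0 :=
      IsFractionRing.to_map_ne_zero_of_mem_nonZeroDivisors hb
    obtain ⟨u, hu⟩ : IsUnit (⟨b', hR b'⟩ : r.V) := by_contra fun hn =>
      (map_ne_zero j).mpr hb0 ((hρ b').symm.trans ((r.ker_iff _).mpr hn))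
    have hi : (b' : A.functionField)⁻¹ ∈ r.V := by
      rw [← show ((u : r.V) : A.functionField) = b' from congrArg Subtype.val hu,
        show ((u : r.V) : A.functionField)⁻¹ = ((↑u⁻¹ : r.V) : A.functionField) from
          inv_eq_of_mul_eq_one_right (congrArg Subtype.val u.mul_inv)]
      exact SetLike.coe_mem _
    refine ⟨mul_mem (hR a') hi, ?_⟩
    show r.ρ (⟨a', hR a'⟩ * ⟨_, hi⟩) = _
    rw [map_mul, hρ a', map_div₀, div_eq_mul_inv]
    congr 1
    refine eq_inv_of_mul_eq_one_left ?_
    rw [show j (algebraMap _ A.functionField b) = r.ρ ⟨b', hR b'⟩ from (hρ b').symm, ← map_mul,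
      show (⟨_, hi⟩ : r.V) * ⟨b', hR b'⟩ = 1 from Subtype.ext (inv_mul_cancel₀ hb0), map_one]
  exact ⟨top_le_iff.1 fun x _ => (key x).1, fun x => (key x.1).2⟩

end FermatAgent.AV.Geo

end
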