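import Fermat.Agent.AV.Count.Field
import Fermat.Agent.AV.Div.Fields
import Fermat.Agent.AV.Geo.Centre

/-!
# The model of an abelian variety

A smooth proper connected commutative group scheme over an algebraically closed field, its
multiplications by integers and a symmetric big divisor give a `Model`.
-/

set_option autoImplicit false

noncomputable section

open CategoryTheory AlgebraicGeometry NeronModelInfra GoodReductionJacobian

universe u

namespace FermatAgent.AV.Geo

variable {K : Type u} [Field K] {A : Scheme.{u}} (f : A ⟶ Spec (CommRingCat.of K))

/-- An abelian variety over an algebraically closed field is an integral scheme. -/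
theorem isIntegral_of_bundle [IsAlgClosed K] (hA : AbelianSchemePropertyBundle K f) :
    IsIntegral A := by
  have : Smooth f := hA.smooth
  have h := hA.connectedFibres (IsLocalRing.closedPoint K)
  have : ConnectedSpace A := connectedSpace_iff_univ.2
    ((Set.eq_univ_of_forall fun x => (Subsingleton.elim _ _ : f.base x = _)) ▸ h)
  exact isIntegral_of_smooth f

/-- The constants in the function field. -/
@[reducible]
def funAlgebra [IsIntegral A] : Algebra K A.functionField := (Squeeze.baseMap f).toAlgebra

/-- The model of an abelian variety: its points with values in fields, generic point, charts,
multiplications by integers and the classes `δ` of a symmetric big divisor. -/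
def model [IsAlgClosed K] (L : RelativeGroupLaw K f) (hc : L.IsCommutative)
    (hA : AbelianSchemePropertyBundle K f) (g : ℕ) [SmoothOfRelativeDimension g f] : Model K g :=
  haveI := hA.proper
  haveI := hA.smooth
  haveI := isIntegral_of_bundle f hA
  letI := funAlgebra f
  have hf : algebraMap K A.functionField = Squeeze.baseMap f := rfl
  haveI := essFiniteType_functionField f hf
  let E := Div.bigEqns f hf
  { Pts := fun F _ _ => Pts f F
    addCommGroup := fun F _ _ => addCommGroup L hc F
    map := fun r => map L hc r
    map_id := mapPt_id
    map_comp := mapPt_comp
    map_injective := mapPt_ofHom_injective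
    FA := A.functionField
    trdeg_eq := trdeg_functionField f hf g
    gen := gen f hf
    generic_unique := generic_unique f hf
    Chart := Chart A
    ring := chartRing f hf
    ring_fg := chartRing_fg f hf
    ring_frac := chartRing_frac f hf
    pt := pt f hf
    pt_gen := pt_gen f hf
    map_pt := map_pt f hf
    pt_centre := pt_centre f hf
    exists_chart := exists_chart f hf
    exists_mulHom := exists_mulHom L g hc hA (gen f hf).2
    δ := fun P => Div.delta f E L P
    δ_map := fun r P => Div.delta_map f E L hc r P
    δ_neg := fun P => Div.delta_neg f E L P
    δ_local := fun P => Div.delta_local f E L hc P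
    δ_big := Div.delta_big_bigEqns f L hf }

end FermatAgent.AV.Geo

end
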